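/-
T16 (S16), lower bound hedge LB-Θ, package Θ-d, private hedge of helper88 (owner of Θ-d is
helper38, ruling board 938): generators of `Γ₀(p)`.

`Γ₀(p)` (`p` prime) is generated by `T`, `-1`, `S T^p S⁻¹` and the elements
`U(j, j*) = S T^j S T^(-j*) S⁻¹` with `j j* ≡ -1 (mod p)`.

Proof: with `K` the subgroup generated by these elements and `R = {1} ∪ {S T^j : j ∈ ℤ}`, the set
`K · R` contains `1` and is stable under right multiplication by `S^{±1}`, `T^{±1}`; since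
`SL(2,ℤ) = ⟨S, T⟩` it is everything.  An element `k r ∈ Γ₀(p)` with `r = S T^j` is impossible
(lower left entry `1`), so `Γ₀(p) ⊆ K`.  (Schreier's lemma done by hand: no transversal needed.)
-/
import Mathlib

set_option autoImplicit false

open Matrix ModularGroup CongruenceSubgroup Matrix.SpecialLinearGroup
open scoped MatrixGroups

namespace Fermat.Agent.S16_helper88.Schreier

/-- The elements `U(j, j*) = S T^j S T^(-j*) S⁻¹`. -/
def genU (j jstar : ℤ) : SL(2, ℤ) := S * T ^ j * S * T ^ (-jstar) * S⁻¹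

/-- The generating set of `Γ₀(p)`. -/
def gamma0Gens (p : ℕ) : Set SL(2, ℤ) :=
  {T, -1, S * T ^ (p : ℤ) * S⁻¹} ∪
    {g | ∃ j jstar : ℤ, (p : ℤ) ∣ j * jstar + 1 ∧ g = genU j jstar}

/-! ### Matrix entries -/

theorem coe_S_inv : ((S⁻¹ : SL(2, ℤ)) : Matrix (Fin 2) (Fin 2) ℤ) = !![0, 1; -1, 0] := by
  simp only [coe_inv, coe_S, adjugate_fin_two_of]
  simp

theorem coe_S_mul_T_zpow (j : ℤ) :
    ((S * T ^ j : SL(2, ℤ)) : Matrix (Fin 2) (Fin 2) ℤ) = !![0, -1; 1, j] := by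
  simp only [coe_mul, coe_S, coe_T_zpow, Matrix.mul_fin_two]
  simp

theorem coe_genU (j jstar : ℤ) :
    ((genU j jstar : SL(2, ℤ)) : Matrix (Fin 2) (Fin 2) ℤ) =
      !![-jstar, -1; j * jstar + 1, j] := by
  unfold genU
  simp only [coe_mul, coe_S, coe_T_zpow, coe_S_inv, Matrix.mul_fin_two]
  congrm !![?_, ?_; ?_, ?_] <;> ring

theorem coe_S_mul_T_zpow_mul_S_inv (n : ℤ) :
    ((S * T ^ n * S⁻¹ : SL(2, ℤ)) : Matrix (Fin 2) (Fin 2) ℤ) = !![1, 0; -n, 1] := by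
  simp only [coe_mul, coe_S, coe_T_zpow, coe_S_inv, Matrix.mul_fin_two]
  congrm !![?_, ?_; ?_, ?_] <;> ring

/-! ### The generators lie in `Γ₀(p)` -/

theorem T_mem_Gamma0 (p : ℕ) : T ∈ Gamma0 p := by
  rw [Gamma0_mem]
  simp [coe_T]

theorem neg_one_mem_Gamma0 (p : ℕ) : (-1 : SL(2, ℤ)) ∈ Gamma0 p := by
  rw [Gamma0_mem]
  simp

theorem S_T_zpow_S_inv_mem_Gamma0 (p : ℕ) : S * T ^ (p : ℤ) * S⁻¹ ∈ Gamma0 p := by
  rw [Gamma0_mem]
  have h := coe_S_mul_T_zpow_mul_S_inv (p : ℤ)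
  have h10 : ((S * T ^ (p : ℤ) * S⁻¹ : SL(2, ℤ)) : Matrix (Fin 2) (Fin 2) ℤ) 1 0 = -(p : ℤ) := by
    rw [h]; rfl
  rw [h10]
  simp

theorem genU_mem_Gamma0 (p : ℕ) {j jstar : ℤ} (h : (p : ℤ) ∣ j * jstar + 1) :
    genU j jstar ∈ Gamma0 p := by
  rw [Gamma0_mem]
  have h10 : ((genU j jstar : SL(2, ℤ)) : Matrix (Fin 2) (Fin 2) ℤ) 1 0 = j * jstar + 1 := by
    rw [coe_genU]; rfl
  rw [h10]
  exact (ZMod.intCast_zmod_eq_zero_iff_dvd _ _).mpr h

theorem gamma0Gens_subset (p : ℕ) : gamma0Gens p ⊆ (Gamma0 p : Set SL(2, ℤ)) := by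
  rintro g (hg | ⟨j, jstar, hj, rfl⟩)
  · rcases hg with rfl | rfl | rfl
    · exact T_mem_Gamma0 p
    · exact neg_one_mem_Gamma0 p
    · exact S_T_zpow_S_inv_mem_Gamma0 p
  · exact genU_mem_Gamma0 p hj

theorem closure_gamma0Gens_le (p : ℕ) : Subgroup.closure (gamma0Gens p) ≤ Gamma0 p :=
  (Subgroup.closure_le _).mpr (gamma0Gens_subset p)

theorem S_mul_T_zpow_notMem_Gamma0 (p : ℕ) (hp : p ≠ 1) (j : ℤ) : S * T ^ j ∉ Gamma0 p := by
  rw [Gamma0_mem]
  have h10 : ((S * T ^ j : SL(2, ℤ)) : Matrix (Fin 2) (Fin 2) ℤ) 1 0 = 1 := by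
    rw [coe_S_mul_T_zpow]; rfl
  rw [h10]
  intro h
  have : (p : ℤ) ∣ 1 := (ZMod.intCast_zmod_eq_zero_iff_dvd _ _).mp h
  have h1 : (p : ℤ) = 1 := Int.eq_one_of_dvd_one (Int.natCast_nonneg p) this
  exact hp (by exact_mod_cast h1)

/-! ### Schreier by hand -/

section Schreier

variable (p : ℕ)

/-- `g ∈ K · ({1} ∪ {S T^j})`. -/
def Good (g : SL(2, ℤ)) : Prop :=
  ∃ k ∈ Subgroup.closure (gamma0Gens p), g = k ∨ ∃ j : ℤ, g = k * (S * T ^ j)

theorem S_mul_S : (S * S : SL(2, ℤ)) = -1 := by decide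

theorem S_inv_eq : (S⁻¹ : SL(2, ℤ)) = -1 * S := by decide

theorem neg_one_mul_comm (g : SL(2, ℤ)) : (-1 : SL(2, ℤ)) * g = g * -1 := by
  simp

theorem T_mem : T ∈ Subgroup.closure (gamma0Gens p) :=
  Subgroup.subset_closure (Or.inl (by simp))

theorem neg_one_mem : (-1 : SL(2, ℤ)) ∈ Subgroup.closure (gamma0Gens p) :=
  Subgroup.subset_closure (Or.inl (by simp))

theorem STS_mem : S * T ^ (p : ℤ) * S⁻¹ ∈ Subgroup.closure (gamma0Gens p) :=
  Subgroup.subset_closure (Or.inl (by simp))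

theorem genU_mem {j jstar : ℤ} (h : (p : ℤ) ∣ j * jstar + 1) :
    genU j jstar ∈ Subgroup.closure (gamma0Gens p) :=
  Subgroup.subset_closure (Or.inr ⟨j, jstar, h, rfl⟩)

/-- The key step: `k · S T^j S ∈ K · R`. -/
theorem good_mul_STS [Fact p.Prime] {k : SL(2, ℤ)} (hk : k ∈ Subgroup.closure (gamma0Gens p))
    (j : ℤ) : Good p (k * (S * T ^ j * S)) := by
  by_cases hj : (p : ℤ) ∣ j
  · obtain ⟨m, rfl⟩ := hj
    refine ⟨k * ((S * T ^ (p : ℤ) * S⁻¹) ^ m * -1), ?_, Or.inl ?_⟩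
    · exact Subgroup.mul_mem _ hk
        (Subgroup.mul_mem _ (Subgroup.zpow_mem _ (STS_mem p) m) (neg_one_mem p))
    · rw [conj_zpow, ← _root_.zpow_mul, ← S_mul_S]
      group
  · have hp : Prime (p : ℤ) := Nat.prime_iff_prime_int.mp (Fact.out : p.Prime)
    have hcop : IsCoprime j (p : ℤ) :=
      (Int.isCoprime_iff_gcd_eq_one.mpr
        (by
          rw [Int.gcd_comm]
          exact (Int.isCoprime_iff_gcd_eq_one.mp
            ((Prime.coprime_iff_not_dvd hp).mpr hj))))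
    obtain ⟨a, b, hab⟩ := hcop
    have hdvd : (p : ℤ) ∣ j * (-a) + 1 := ⟨b, by linarith⟩
    refine ⟨k * genU j (-a), Subgroup.mul_mem _ hk (genU_mem p hdvd), Or.inr ⟨-a, ?_⟩⟩
    unfold genU
    group

theorem good_one : Good p 1 := ⟨1, Subgroup.one_mem _, Or.inl rfl⟩

theorem good_mul_T {g : SL(2, ℤ)} (hg : Good p g) : Good p (g * T) := by
  obtain ⟨k, hk, hg | ⟨j, hg⟩⟩ := hg <;> rw [hg]
  · exact ⟨k * T, Subgroup.mul_mem _ hk (T_mem p), Or.inl rfl⟩
  · refine ⟨k, hk, Or.inr ⟨j + 1, ?_⟩⟩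
    rw [_root_.zpow_add_one]
    group

theorem good_mul_T_inv {g : SL(2, ℤ)} (hg : Good p g) : Good p (g * T⁻¹) := by
  obtain ⟨k, hk, hg | ⟨j, hg⟩⟩ := hg <;> rw [hg]
  · exact ⟨k * T⁻¹, Subgroup.mul_mem _ hk (Subgroup.inv_mem _ (T_mem p)), Or.inl rfl⟩
  · refine ⟨k, hk, Or.inr ⟨j - 1, ?_⟩⟩
    rw [_root_.zpow_sub_one]
    group

theorem good_mul_S [Fact p.Prime] {g : SL(2, ℤ)} (hg : Good p g) : Good p (g * S) := by
  obtain ⟨k, hk, hg | ⟨j, hg⟩⟩ := hg <;> rw [hg]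
  · exact ⟨k, hk, Or.inr ⟨0, by simp⟩⟩
  · have := good_mul_STS p hk j
    rwa [show k * (S * T ^ j) * S = k * (S * T ^ j * S) by group]

theorem good_mul_S_inv [Fact p.Prime] {g : SL(2, ℤ)} (hg : Good p g) : Good p (g * S⁻¹) := by
  obtain ⟨k, hk, hg | ⟨j, hg⟩⟩ := hg <;> rw [hg]
  · refine ⟨k * -1, Subgroup.mul_mem _ hk (neg_one_mem p), Or.inr ⟨0, ?_⟩⟩
    rw [S_inv_eq]
    simp
  · have := good_mul_STS p (Subgroup.mul_mem _ hk (neg_one_mem p)) j
    have e : k * (S * T ^ j) * S⁻¹ = k * -1 * (S * T ^ j * S) := by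
      rw [S_inv_eq]
      simp only [mul_assoc, mul_neg, mul_one, neg_mul, one_mul]
    rwa [e]

theorem good_all [Fact p.Prime] (g : SL(2, ℤ)) : Good p g := by
  have hg : g ∈ Subgroup.closure ({S, T} : Set SL(2, ℤ)) := by
    rw [SpecialLinearGroup.SL2Z_generators]; exact Subgroup.mem_top g
  refine Subgroup.closure_induction_right (p := fun x _ => Good p x) (good_one p) ?_ ?_ hg
  · rintro x - y hy hx
    rcases hy with rfl | rfl
    · exact good_mul_S p hx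
    · exact good_mul_T p hx
  · rintro x - y hy hx
    rcases hy with rfl | rfl
    · exact good_mul_S_inv p hx
    · exact good_mul_T_inv p hx

end Schreier

/-- **Θ-d.**  `Γ₀(p)` is generated by `T`, `-1`, `S T^p S⁻¹` and the `U(j, j*)`. -/
theorem closure_gamma0Gens (p : ℕ) [Fact p.Prime] :
    Subgroup.closure (gamma0Gens p) = Gamma0 p := by
  refine le_antisymm (closure_gamma0Gens_le p) fun g hg => ?_
  obtain ⟨k, hk, h | ⟨j, h⟩⟩ := good_all p g <;> rw [h] at hg ⊢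
  · exact hk
  · exfalso
    have hk' : k ∈ Gamma0 p := closure_gamma0Gens_le p hk
    have : S * T ^ j ∈ Gamma0 p := by
      have := (Gamma0 p).mul_mem ((Gamma0 p).inv_mem hk') hg
      rwa [inv_mul_cancel_left] at this
    exact S_mul_T_zpow_notMem_Gamma0 p (Fact.out : p.Prime).ne_one j this

/-- Consumer form: a property which holds for the generators and is stable under products and
inverses holds on all of `Γ₀(p)`. -/
theorem gamma0_induction (p : ℕ) [Fact p.Prime] (P : SL(2, ℤ) → Prop) (h1 : P 1)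
    (hmul : ∀ g h, P g → P h → P (g * h)) (hinv : ∀ g, P g → P g⁻¹) (hT : P T)
    (hneg : P (-1)) (hSTS : P (S * T ^ (p : ℤ) * S⁻¹))
    (hU : ∀ j jstar : ℤ, (p : ℤ) ∣ j * jstar + 1 → P (S * T ^ j * S * T ^ (-jstar) * S⁻¹)) :
    ∀ g ∈ Gamma0 p, P g := by
  intro g hg
  rw [← closure_gamma0Gens p] at hg
  induction hg using Subgroup.closure_induction with
  | mem x hx =>
    rcases hx with hx | ⟨j, jstar, hj, rfl⟩
    · rcases hx with rfl | rfl | rfl
      · exact hT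
      · exact hneg
      · exact hSTS
    · exact hU j jstar hj
  | one => exact h1
  | mul x y _ _ hx hy => exact hmul x y hx hy
  | inv x _ hx => exact hinv x hx

/-- **Θ-d in the exact shape of `S16/Theta/Skeleton.lean`.** -/
theorem gamma0_le_closure (p : ℕ) (hp : p.Prime) :
    CongruenceSubgroup.Gamma0 p ≤ Subgroup.closure
      ({ModularGroup.T, -1, ModularGroup.S * ModularGroup.T ^ (p : ℤ) * ModularGroup.S⁻¹} ∪
        {g | ∃ j k : ℤ, (p : ℤ) ∣ j * k + 1 ∧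
          g = ModularGroup.S * ModularGroup.T ^ j * ModularGroup.S *
            ModularGroup.T ^ (-k) * ModularGroup.S⁻¹}) := by
  haveI : Fact p.Prime := ⟨hp⟩
  exact (closure_gamma0Gens p).ge

/-- The reverse inclusion, same shape. -/
theorem closure_le_gamma0 (p : ℕ) :
    Subgroup.closure
      ({ModularGroup.T, -1, ModularGroup.S * ModularGroup.T ^ (p : ℤ) * ModularGroup.S⁻¹} ∪
        {g | ∃ j k : ℤ, (p : ℤ) ∣ j * k + 1 ∧
          g = ModularGroup.S * ModularGroup.T ^ j * ModularGroup.S *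
            ModularGroup.T ^ (-k) * ModularGroup.S⁻¹}) ≤ CongruenceSubgroup.Gamma0 p :=
  closure_gamma0Gens_le p

/-- Consumer form with an explicit primality hypothesis (for `Θ-c`/`Θ-f`: slash invariance under
the four generator families gives slash invariance under `Γ₀(p)`). -/
theorem gamma0_induction' (p : ℕ) (hp : p.Prime) (P : SL(2, ℤ) → Prop) (h1 : P 1)
    (hmul : ∀ g h, P g → P h → P (g * h)) (hinv : ∀ g, P g → P g⁻¹) (hT : P T)
    (hneg : P (-1)) (hSTS : P (S * T ^ (p : ℤ) * S⁻¹))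
    (hU : ∀ j k : ℤ, (p : ℤ) ∣ j * k + 1 → P (S * T ^ j * S * T ^ (-k) * S⁻¹)) :
    ∀ g ∈ Gamma0 p, P g := by
  haveI : Fact p.Prime := ⟨hp⟩
  exact gamma0_induction p P h1 hmul hinv hT hneg hSTS hU

end Fermat.Agent.S16_helper88.Schreier
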